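/-
Lib/Chebotarev : the Chebotarev density theorem (Dirichlet density, lower bound), without class
field theory (Chebotarev's field crossing argument).  Common definitions.  Owner: helper32.
-/
import Fermat.Agent.Lib.FrobDensity.Main
import Fermat.Agent.ES.D.Cyclo

set_option autoImplicit false

namespace Fermat.Agent.CH

open Fermat.Agent.FD (GQ Qb lg BddDiff)

/-- all Frobenius elements at all places over `p` are mapped into `X` by `r`. -/
def FrobIn {G : Type*} [Group G] (r : GQ →* G) (X : Set G) (p : ℕ) : Prop :=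
  ∀ (A : ValuationSubring Qb) (φ : GQ), A.LiesOverPrime p → A.IsFrobeniusAt φ p → r φ ∈ X

/-- the set of primes `p ∉ S` all of whose Frobenius elements are mapped into `X`. -/
def frobSet {G : Type*} [Group G] (r : GQ →* G) (X : Set G) (S : Finset ℕ) : Set ℕ :=
  {p | p.Prime ∧ p ∉ S ∧ FrobIn r X p}

/-- `∑_{p ∈ P} p^(-s)`. -/
noncomputable def nsum (P : Set ℕ) (s : ℝ) : ℝ := ∑' p : ℕ, P.indicator (fun p => (p : ℝ) ^ (-s)) p

end Fermat.Agent.CH
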